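import Fermat.Agent.S26.SpecPic
import Fermat.Agent.S25.H567.GeomIntegral
import Fermat.Prelude.Def_AlgebraicGeometry_RelPicardAlgEquivZeroCut

/-!
# Row S27, block J-GRP (helper927): the group law on the Jacobian, formal form

`RigidifiedLineBundle.rigidified` is a `Prop` and `RepresentsRelSubPic.univ` sees the module
`M.L` only up to isomorphism.  Hence, for any Picard theory `T` with a dictionary `PicDict T`
between classes and invertible sheaves of modules, the `t`-points of a scheme `D` representing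
the degree-zero relative Picard functor of `c` are in bijection with the classes
`ℓ ∈ T.Pic (C ×ₖ T)` which are trivial along the section `ε` and fibrewise algebraically
equivalent to zero (`Good`).  These classes form a subgroup, natural in `t`, so `D` carries a
commutative `RelativeGroupLaw`.

No tensor product of sheaves of modules is needed.

* `PicDict T`            : the dictionary (S26 `ModDict` + four more fields).
* `AEZ`                  : algebraic equivalence to zero of a class; `AEZ.add`, `AEZ.neg`.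
* `Good`                 : the subgroup of `T.Pic (pullback c t)`.
* `pt`                   : the class of a point of `D`; `pt_injective`, `exists_pt_eq`, `pt_comp`.
* `groupLaw`             : the `RelativeGroupLaw`, with `pt_mul`, `pt_one`, `pt_inv`,
                           `groupLaw_isCommutative`, `pt_nsmul`, `isTorsionPoint_iff`.
-/

set_option autoImplicit false
universe u

open CategoryTheory CategoryTheory.Limits AlgebraicGeometry AlgebraicGeometry.RelPicard
  NeronModelInfra GoodReductionJacobian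

namespace Fermat.Agent.S27.H927

noncomputable section

/-! ## The dictionary -/

/-- A dictionary between the classes of a Picard theory and invertible sheaves of modules:
`Rep c L` means "the invertible module `L` represents the class `c`". -/
structure PicDict (T : S26.PicTheory.{u}) where
  /-- `L` represents the class `c` -/
  Rep : ∀ {X : Scheme.{u}}, T.Pic X → X.Modules → Prop
  exists_rep : ∀ {X : Scheme.{u}} (c : T.Pic X),
    ∃ L : X.Modules, Scheme.Modules.IsInvertible L ∧ Rep c L
  exists_class : ∀ {X : Scheme.{u}} (L : X.Modules), Scheme.Modules.IsInvertible L →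
    ∃ c : T.Pic X, Rep c L
  rep_congr : ∀ {X : Scheme.{u}} (c : T.Pic X) (L L' : X.Modules), Rep c L →
    Nonempty (L ≅ L') → Rep c L'
  rep_iso : ∀ {X : Scheme.{u}} (c : T.Pic X) (L L' : X.Modules), Rep c L → Rep c L' →
    Nonempty (L ≅ L')
  rep_inj : ∀ {X : Scheme.{u}} (c c' : T.Pic X) (L : X.Modules), Rep c L → Rep c' L → c = c'
  rep_unit : ∀ (X : Scheme.{u}), Rep (0 : T.Pic X) (SheafOfModules.unit X.ringCatSheaf)
  rep_pullback : ∀ {X Y : Scheme.{u}} (f : X ⟶ Y) (c : T.Pic Y) (L : Y.Modules), Rep c L →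
    Rep (T.map f c) ((Scheme.Modules.pullback f).obj L)

namespace PicDict

variable {T : S26.PicTheory.{u}} (d : PicDict T)

/-- The class of an invertible module. -/
def cls {X : Scheme.{u}} (L : X.Modules) (hL : Scheme.Modules.IsInvertible L) : T.Pic X :=
  (d.exists_class L hL).choose

theorem rep_cls {X : Scheme.{u}} (L : X.Modules) (hL : Scheme.Modules.IsInvertible L) :
    d.Rep (d.cls L hL) L :=
  (d.exists_class L hL).choose_spec

theorem cls_eq_of_rep {X : Scheme.{u}} {c : T.Pic X} {L : X.Modules}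
    (hL : Scheme.Modules.IsInvertible L) (h : d.Rep c L) : d.cls L hL = c :=
  d.rep_inj _ _ L (d.rep_cls L hL) h

theorem cls_eq_iff {X : Scheme.{u}} {L L' : X.Modules} (hL : Scheme.Modules.IsInvertible L)
    (hL' : Scheme.Modules.IsInvertible L') :
    d.cls L hL = d.cls L' hL' ↔ Nonempty (L ≅ L') := by
  constructor
  · intro h
    exact d.rep_iso _ L L' (d.rep_cls L hL) (h ▸ d.rep_cls L' hL')
  · intro h
    exact d.cls_eq_of_rep hL (d.rep_congr _ L' L (d.rep_cls L' hL') ⟨h.some.symm⟩)

theorem cls_pullback {X Y : Scheme.{u}} (f : X ⟶ Y) (L : Y.Modules)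
    (hL : Scheme.Modules.IsInvertible L) (hL' : Scheme.Modules.IsInvertible
      ((Scheme.Modules.pullback f).obj L)) :
    d.cls ((Scheme.Modules.pullback f).obj L) hL' = T.map f (d.cls L hL) :=
  d.cls_eq_of_rep hL' (d.rep_pullback f _ L (d.rep_cls L hL))

theorem cls_unit (X : Scheme.{u})
    (h : Scheme.Modules.IsInvertible (SheafOfModules.unit X.ringCatSheaf)) :
    d.cls (SheafOfModules.unit X.ringCatSheaf) h = 0 :=
  d.cls_eq_of_rep h (d.rep_unit X)

theorem rep_zero_iff {X : Scheme.{u}} (c : T.Pic X) (L : X.Modules) (h : d.Rep c L) :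
    c = 0 ↔ Nonempty (L ≅ SheafOfModules.unit X.ringCatSheaf) := by
  constructor
  · rintro rfl
    exact d.rep_iso _ _ _ h (d.rep_unit X)
  · intro e
    exact d.rep_inj _ _ _ (d.rep_congr _ _ _ h e) (d.rep_unit X)

theorem cls_eq_zero_iff {X : Scheme.{u}} {L : X.Modules} (hL : Scheme.Modules.IsInvertible L) :
    d.cls L hL = 0 ↔ Nonempty (L ≅ SheafOfModules.unit X.ringCatSheaf) :=
  d.rep_zero_iff _ L (d.rep_cls L hL)

end PicDict

/-! ## Algebraic equivalence to zero, for classes -/

section AEZ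

variable (T : S26.PicTheory.{u})

/-- A class `ℓ` on a `k`-scheme `A` is algebraically equivalent to zero: there is a family of
classes, parametrised by a geometrically integral `k`-scheme locally of finite type, joining
`0` to `ℓ`.  This is `IsAlgEquivZero` of the Prelude, in the language of classes. -/
def AEZ {k : Type u} [Field k] {A : Scheme.{u}} (a : A ⟶ Spec (CommRingCat.of k))
    (ℓ : T.Pic A) : Prop :=
  ∃ (T' : Scheme.{u}) (h : T' ⟶ Spec (CommRingCat.of k)) (_ : LocallyOfFiniteType h)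
    (_ : GeometricallyIntegral h) (m : T.Pic (pullback a h))
    (t₀ t₁ : SchemeHomOver (𝟙 (Spec (CommRingCat.of k))) h),
    T.map (baseChangeSnd a t₀) m = 0 ∧
      T.map (baseChangeSnd a t₁) m = T.map (pullback.fst a (𝟙 (Spec (CommRingCat.of k)))) ℓ

variable {T}

theorem AEZ.zero {k : Type u} [Field k] {A : Scheme.{u}} (a : A ⟶ Spec (CommRingCat.of k)) :
    AEZ T a 0 :=
  ⟨Spec (CommRingCat.of k), 𝟙 _, inferInstance, geometricallyIntegral_id_Spec k, 0,
    ⟨𝟙 _, Category.comp_id _⟩, ⟨𝟙 _, Category.comp_id _⟩, map_zero _,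
    (map_zero _).trans (map_zero _).symm⟩

theorem AEZ.neg {k : Type u} [Field k] {A : Scheme.{u}} {a : A ⟶ Spec (CommRingCat.of k)}
    {ℓ : T.Pic A} (h : AEZ T a ℓ) : AEZ T a (-ℓ) := by
  obtain ⟨T', h, hft, hgi, m, t₀, t₁, h₀, h₁⟩ := h
  exact ⟨T', h, hft, hgi, -m, t₀, t₁, by rw [map_neg, h₀, neg_zero], by rw [map_neg, h₁, map_neg]⟩

/-- The product of two geometrically integral schemes, locally of finite type over an
algebraically closed field, is geometrically integral. -/
theorem geometricallyIntegral_prod {k : Type u} [Field k] [IsAlgClosed k] {Y Z : Scheme.{u}}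
    (y : Y ⟶ Spec (CommRingCat.of k)) (z : Z ⟶ Spec (CommRingCat.of k))
    [LocallyOfFiniteType y] [LocallyOfFiniteType z]
    [GeometricallyIntegral y] [GeometricallyIntegral z] :
    GeometricallyIntegral (pullback.fst y z ≫ y) := by
  have : IsIntegral Y := GeometricallyIntegral.isIntegral_of_subsingleton y
  have : IsIntegral Z := GeometricallyIntegral.isIntegral_of_subsingleton z
  have : IsLocallyNoetherian Y := LocallyOfFiniteType.isLocallyNoetherian y
  have : IsLocallyNoetherian Z := LocallyOfFiniteType.isLocallyNoetherian z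
  have : IsIntegral (pullback y z) := S25.H567.isIntegral_pullback_of_isIntegral y z
  have : LocallyOfFiniteType (pullback.fst y z ≫ y) := inferInstance
  have : IsLocallyNoetherian (pullback y z) :=
    LocallyOfFiniteType.isLocallyNoetherian (pullback.fst y z ≫ y)
  exact S25.H567.geometricallyIntegral_of_isAlgClosed _

theorem AEZ.add {k : Type u} [Field k] [IsAlgClosed k] {A : Scheme.{u}}
    {a : A ⟶ Spec (CommRingCat.of k)} {ℓ ℓ' : T.Pic A} (h : AEZ T a ℓ) (h' : AEZ T a ℓ') :
    AEZ T a (ℓ + ℓ') := by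
  obtain ⟨T₁, h₁, hft₁, hgi₁, m₁, t₀, t₁, e₀, e₁⟩ := h
  obtain ⟨T₂, h₂, hft₂, hgi₂, m₂, s₀, s₁, f₀, f₁⟩ := h'
  -- the product family
  let hP : pullback h₁ h₂ ⟶ Spec (CommRingCat.of k) := pullback.fst h₁ h₂ ≫ h₁
  let p₁ : SchemeHomOver hP h₁ := ⟨pullback.fst h₁ h₂, rfl⟩
  let p₂ : SchemeHomOver hP h₂ := ⟨pullback.snd h₁ h₂, pullback.condition.symm⟩
  have mk : ∀ (u : SchemeHomOver (𝟙 (Spec (CommRingCat.of k))) h₁)
      (v : SchemeHomOver (𝟙 (Spec (CommRingCat.of k))) h₂),
      ∃ w : SchemeHomOver (𝟙 (Spec (CommRingCat.of k))) hP, postComp p₁ w = u ∧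
        postComp p₂ w = v := by
    intro u v
    refine ⟨⟨pullback.lift u.1 v.1 (by rw [u.2, v.2]), ?_⟩, ?_, ?_⟩
    · simp only [hP, pullback.lift_fst_assoc, u.2]
    · exact Subtype.ext (pullback.lift_fst _ _ _)
    · exact Subtype.ext (pullback.lift_snd _ _ _)
  have key : ∀ (u : SchemeHomOver (𝟙 (Spec (CommRingCat.of k))) h₁)
      (v : SchemeHomOver (𝟙 (Spec (CommRingCat.of k))) h₂)
      (w : SchemeHomOver (𝟙 (Spec (CommRingCat.of k))) hP), postComp p₁ w = u →
        postComp p₂ w = v →
      T.map (baseChangeSnd a w) (T.map (baseChangeSnd a p₁) m₁ + T.map (baseChangeSnd a p₂) m₂) =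
        T.map (baseChangeSnd a u) m₁ + T.map (baseChangeSnd a v) m₂ := by
    intro u v w hu hv
    rw [map_add, ← T.map_comp, ← T.map_comp, baseChangeSnd_comp, baseChangeSnd_comp, hu, hv]
  obtain ⟨w₀, hw₀, hw₀'⟩ := mk t₀ s₀
  obtain ⟨w₁, hw₁, hw₁'⟩ := mk t₁ s₁
  refine ⟨pullback h₁ h₂, hP, inferInstance, geometricallyIntegral_prod h₁ h₂,
    T.map (baseChangeSnd a p₁) m₁ + T.map (baseChangeSnd a p₂) m₂, w₀, w₁, ?_, ?_⟩
  · rw [key t₀ s₀ w₀ hw₀ hw₀', e₀, f₀, add_zero]
  · rw [key t₁ s₁ w₁ hw₁ hw₁', e₁, f₁, map_add]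

/-- The Prelude's `IsAlgEquivZero` is `AEZ` of the class. -/
theorem isAlgEquivZero_iff (d : PicDict T) {k : Type u} [Field k] {A : Scheme.{u}}
    (a : A ⟶ Spec (CommRingCat.of k)) (L : A.Modules) (hL : Scheme.Modules.IsInvertible L) :
    IsAlgEquivZero a L ↔ AEZ T a (d.cls L hL) := by
  constructor
  · rintro ⟨T', h, hft, hgi, M, hM, t₀, t₁, e₀, e₁⟩
    refine ⟨T', h, hft, hgi, d.cls M hM, t₀, t₁, ?_, ?_⟩
    · exact (d.rep_zero_iff _ _ (d.rep_pullback _ _ M (d.rep_cls M hM))).2 e₀
    · exact d.rep_inj _ _ _ (d.rep_congr _ _ _ (d.rep_pullback _ _ M (d.rep_cls M hM)) e₁)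
        (d.rep_pullback _ _ L (d.rep_cls L hL))
  · rintro ⟨T', h, hft, hgi, m, t₀, t₁, e₀, e₁⟩
    obtain ⟨M, hM, hrep⟩ := d.exists_rep m
    refine ⟨T', h, hft, hgi, M, hM, t₀, t₁, ?_, ?_⟩
    · exact (d.rep_zero_iff _ _ (d.rep_pullback _ _ M hrep)).1 e₀
    · refine d.rep_iso _ _ _ (d.rep_pullback _ _ M hrep) ?_
      rw [e₁]
      exact d.rep_pullback _ _ L (d.rep_cls L hL)

end AEZ

/-! ## The subgroup of good classes -/

section Good

variable {T : S26.PicTheory.{u}} {k : Type u} [Field k] {C : Scheme.{u}}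

/-- A class on `C ×ₖ S` is *good* if it is trivial along the section `ε` and fibrewise
algebraically equivalent to zero. -/
def Good (T : S26.PicTheory.{u}) (c : C ⟶ Spec (CommRingCat.of k))
    (ε : SchemeHomOver (𝟙 (Spec (CommRingCat.of k))) c) {S : Scheme.{u}}
    (t : S ⟶ Spec (CommRingCat.of k)) (ℓ : T.Pic (pullback c t)) : Prop :=
  T.map (rigSection c t ε) ℓ = 0 ∧
    ∀ (k' : Type u) [Field k'] [IsAlgClosed k'] (s : Spec (CommRingCat.of k') ⟶ S),
      AEZ T (fibreAt c t s) (T.map (pullback.fst (pullback.snd c t) s) ℓ)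

variable {c : C ⟶ Spec (CommRingCat.of k)} {ε : SchemeHomOver (𝟙 (Spec (CommRingCat.of k))) c}
  {S : Scheme.{u}} {t : S ⟶ Spec (CommRingCat.of k)}

theorem Good.zero : Good T c ε t 0 :=
  ⟨map_zero _, fun k' _ _ s => by rw [map_zero]; exact AEZ.zero _⟩

theorem Good.add {ℓ ℓ' : T.Pic (pullback c t)} (h : Good T c ε t ℓ) (h' : Good T c ε t ℓ') :
    Good T c ε t (ℓ + ℓ') :=
  ⟨by rw [map_add, h.1, h'.1, add_zero],
    fun k' _ _ s => by rw [map_add]; exact (h.2 k' s).add (h'.2 k' s)⟩

theorem Good.neg {ℓ : T.Pic (pullback c t)} (h : Good T c ε t ℓ) : Good T c ε t (-ℓ) :=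
  ⟨by rw [map_neg, h.1, neg_zero], fun k' _ _ s => by rw [map_neg]; exact (h.2 k' s).neg⟩

theorem Good.nsmul {ℓ : T.Pic (pullback c t)} (h : Good T c ε t ℓ) (n : ℕ) :
    Good T c ε t (n • ℓ) := by
  induction n with
  | zero => rw [zero_smul]; exact Good.zero
  | succ n ih => rw [succ_nsmul]; exact ih.add h

variable (d : PicDict T)

/-- The class of a rigidified line bundle in the cut is good. -/
theorem good_cls (M : RigidifiedLineBundle c ε t) (hM : FibrewiseAlgEquivZero M) :
    Good T c ε t (d.cls M.L M.isInvertible) := by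
  refine ⟨?_, fun k' _ _ s => ?_⟩
  · rw [← d.cls_pullback _ _ M.isInvertible (M.isInvertible.pullback _), d.cls_eq_zero_iff]
    exact M.rigidified
  · rw [← d.cls_pullback _ _ M.isInvertible (M.isInvertible.pullback _)]
    exact (isAlgEquivZero_iff d _ _ _).1 (hM k' s)

/-- Every good class is the class of a rigidified line bundle in the cut. -/
theorem exists_rigidified_of_good {ℓ : T.Pic (pullback c t)} (h : Good T c ε t ℓ) :
    ∃ M : RigidifiedLineBundle c ε t, d.Rep ℓ M.L ∧ FibrewiseAlgEquivZero M := by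
  obtain ⟨L, hL, hrep⟩ := d.exists_rep ℓ
  refine ⟨⟨L, hL, (d.rep_zero_iff _ _ (d.rep_pullback _ _ L hrep)).1 h.1⟩, hrep,
    fun k' _ _ s => ?_⟩
  refine (isAlgEquivZero_iff d _ _ (hL.pullback _)).2 ?_
  rw [d.cls_pullback _ _ hL, d.cls_eq_of_rep hL hrep]
  exact h.2 k' s

end Good

/-! ## Points of the representing scheme -/

section Points

variable {T : S26.PicTheory.{u}} (d : PicDict T) {k : Type u} [Field k] {C : Scheme.{u}}
  {c : C ⟶ Spec (CommRingCat.of k)} {ε : SchemeHomOver (𝟙 (Spec (CommRingCat.of k))) c}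
  {D : RelativePic0Designation k c} (h : RepresentsRelSubPic c ε (algEquivZeroCut c ε) D)

/-- The class of a point of the representing scheme: the class of the pull-back of the
Poincaré bundle. -/
def pt {S : Scheme.{u}} {t : S ⟶ Spec (CommRingCat.of k)} (g : SchemeHomOver t D.toBase) :
    T.Pic (pullback c t) :=
  d.cls (h.poincare.pullbackAlong g).L (h.poincare.pullbackAlong g).isInvertible

theorem good_pt {S : Scheme.{u}} {t : S ⟶ Spec (CommRingCat.of k)}
    (g : SchemeHomOver t D.toBase) : Good T c ε t (pt d h g) :=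
  good_cls d _ ((algEquivZeroCut c ε).pullback_mem _ _ g _ h.poincare_mem)

theorem pt_injective {S : Scheme.{u}} {t : S ⟶ Spec (CommRingCat.of k)} :
    Function.Injective (pt d h : SchemeHomOver t D.toBase → T.Pic (pullback c t)) :=
  fun g g' e => h.ext_of_iso t g g' ((d.cls_eq_iff _ _).1 e)

theorem exists_pt_eq {S : Scheme.{u}} {t : S ⟶ Spec (CommRingCat.of k)}
    {ℓ : T.Pic (pullback c t)} (hℓ : Good T c ε t ℓ) :
    ∃ g : SchemeHomOver t D.toBase, pt d h g = ℓ := by
  obtain ⟨M, hrep, hM⟩ := exists_rigidified_of_good d hℓ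
  refine ⟨h.classify t M hM, ?_⟩
  refine d.cls_eq_of_rep _ (d.rep_congr _ _ _ hrep ?_)
  exact ⟨(h.classify_spec t M hM).some.symm⟩

/-- A class is good iff it is the class of a point. -/
theorem good_iff_exists_pt {S : Scheme.{u}} {t : S ⟶ Spec (CommRingCat.of k)}
    (ℓ : T.Pic (pullback c t)) :
    Good T c ε t ℓ ↔ ∃ g : SchemeHomOver t D.toBase, pt d h g = ℓ :=
  ⟨exists_pt_eq d h, by rintro ⟨g, rfl⟩; exact good_pt d h g⟩

/-- Naturality of the class of a point. -/
theorem pt_comp {S S' : Scheme.{u}} {t : S ⟶ Spec (CommRingCat.of k)}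
    {t' : S' ⟶ Spec (CommRingCat.of k)} (ψ : S' ⟶ S) (hψ : ψ ≫ t = t')
    (g : SchemeHomOver t D.toBase) :
    pt d h (schemeHomOverComp ψ hψ g) =
      T.map (baseChangeSnd c (⟨ψ, hψ⟩ : SchemeHomOver t' t)) (pt d h g) := by
  unfold pt
  rw [← d.cls_pullback _ _ (h.poincare.pullbackAlong g).isInvertible
    ((h.poincare.pullbackAlong g).isInvertible.pullback _), d.cls_eq_iff]
  have e : baseChangeSnd c (⟨ψ, hψ⟩ : SchemeHomOver t' t) ≫ baseChangeSnd c g =
      baseChangeSnd c (schemeHomOverComp ψ hψ g) :=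
    baseChangeSnd_comp c g (⟨ψ, hψ⟩ : SchemeHomOver t' t)
  exact ⟨(Scheme.Modules.pullbackCongr e.symm).app h.poincare.L ≪≫
    ((Scheme.Modules.pullbackComp _ _).app h.poincare.L).symm⟩

end Points

/-! ## The group law -/

section Law

variable {T : S26.PicTheory.{u}} (d : PicDict T) {k : Type u} [Field k] {C : Scheme.{u}}
  {c : C ⟶ Spec (CommRingCat.of k)} {ε : SchemeHomOver (𝟙 (Spec (CommRingCat.of k))) c}
  {D : RelativePic0Designation k c} (h : RepresentsRelSubPic c ε (algEquivZeroCut c ε) D)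

/-- The product of two points. -/
def mulPt {S : Scheme.{u}} (t : S ⟶ Spec (CommRingCat.of k)) (x y : SchemeHomOver t D.toBase) :
    SchemeHomOver t D.toBase :=
  (exists_pt_eq d h ((good_pt d h x).add (good_pt d h y))).choose

/-- The neutral point. -/
def onePt {S : Scheme.{u}} (t : S ⟶ Spec (CommRingCat.of k)) : SchemeHomOver t D.toBase :=
  (exists_pt_eq d h (Good.zero (T := T) (c := c) (ε := ε) (t := t))).choose

/-- The inverse of a point. -/
def invPt {S : Scheme.{u}} (t : S ⟶ Spec (CommRingCat.of k)) (x : SchemeHomOver t D.toBase) :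
    SchemeHomOver t D.toBase :=
  (exists_pt_eq d h (good_pt d h x).neg).choose

theorem pt_mulPt {S : Scheme.{u}} (t : S ⟶ Spec (CommRingCat.of k))
    (x y : SchemeHomOver t D.toBase) : pt d h (mulPt d h t x y) = pt d h x + pt d h y :=
  (exists_pt_eq d h ((good_pt d h x).add (good_pt d h y))).choose_spec

theorem pt_onePt {S : Scheme.{u}} (t : S ⟶ Spec (CommRingCat.of k)) :
    pt d h (onePt d h t) = 0 :=
  (exists_pt_eq d h (Good.zero (T := T) (c := c) (ε := ε) (t := t))).choose_spec

theorem pt_invPt {S : Scheme.{u}} (t : S ⟶ Spec (CommRingCat.of k))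
    (x : SchemeHomOver t D.toBase) : pt d h (invPt d h t x) = -pt d h x :=
  (exists_pt_eq d h (good_pt d h x).neg).choose_spec

/-- **J-GRP.**  The group law on a scheme representing the degree-zero relative Picard
functor. -/
def groupLaw : RelativeGroupLaw k D.toBase where
  mul t x y := mulPt d h t x y
  one t := onePt d h t
  inv t x := invPt d h t x
  mul_assoc t x y z := pt_injective d h (by
    rw [pt_mulPt, pt_mulPt, pt_mulPt, pt_mulPt, add_assoc])
  one_mul t x := pt_injective d h (by rw [pt_mulPt, pt_onePt, zero_add])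
  mul_one t x := pt_injective d h (by rw [pt_mulPt, pt_onePt, add_zero])
  inv_mul_cancel t x := pt_injective d h (by
    rw [pt_mulPt, pt_invPt, pt_onePt, neg_add_cancel])
  mul_natural t t' ψ hψ x y := pt_injective d h (by
    rw [pt_comp, pt_mulPt, pt_mulPt, pt_comp, pt_comp, map_add])

@[simp]
theorem pt_mul {S : Scheme.{u}} (t : S ⟶ Spec (CommRingCat.of k))
    (x y : SchemeHomOver t D.toBase) :
    pt d h ((groupLaw d h).mul t x y) = pt d h x + pt d h y :=
  pt_mulPt d h t x y

@[simp]
theorem pt_one {S : Scheme.{u}} (t : S ⟶ Spec (CommRingCat.of k)) :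
    pt d h ((groupLaw d h).one t) = 0 :=
  pt_onePt d h t

@[simp]
theorem pt_inv {S : Scheme.{u}} (t : S ⟶ Spec (CommRingCat.of k))
    (x : SchemeHomOver t D.toBase) : pt d h ((groupLaw d h).inv t x) = -pt d h x :=
  pt_invPt d h t x

theorem groupLaw_isCommutative : (groupLaw d h).IsCommutative :=
  fun t x y => pt_injective d h (by rw [pt_mul, pt_mul, add_comm])

theorem pt_nsmul {S : Scheme.{u}} (t : S ⟶ Spec (CommRingCat.of k)) (n : ℕ)
    (x : SchemeHomOver t D.toBase) :
    pt d h ((groupLaw d h).nsmul t n x) = n • pt d h x := by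
  induction n with
  | zero => rw [RelativeGroupLaw.nsmul_zero, pt_one, zero_smul]
  | succ n ih => rw [RelativeGroupLaw.nsmul_succ, pt_mul, ih, succ_nsmul]

theorem isTorsionPoint_iff {S : Scheme.{u}} (t : S ⟶ Spec (CommRingCat.of k)) (n : ℕ)
    (x : SchemeHomOver t D.toBase) :
    (groupLaw d h).IsTorsionPoint t n x ↔ n • pt d h x = 0 := by
  rw [RelativeGroupLaw.isTorsionPoint_def, ← pt_nsmul, ← pt_one d h t]
  exact (pt_injective d h).eq_iff.symm

/-- The points of the representing scheme are in bijection with the good classes. -/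
def ptEquiv {S : Scheme.{u}} (t : S ⟶ Spec (CommRingCat.of k)) :
    SchemeHomOver t D.toBase ≃ {ℓ : T.Pic (pullback c t) // Good T c ε t ℓ} :=
  Equiv.ofBijective (fun g => ⟨pt d h g, good_pt d h g⟩)
    ⟨fun _ _ e => pt_injective d h (congrArg Subtype.val e),
      fun ℓ => (exists_pt_eq d h ℓ.2).imp fun _ e => Subtype.ext e⟩

/-- The `n`-torsion points of the representing scheme are in bijection with the good classes
killed by `n`. -/
def torsionEquiv {S : Scheme.{u}} (t : S ⟶ Spec (CommRingCat.of k)) (n : ℕ) :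
    {x : SchemeHomOver t D.toBase // (groupLaw d h).IsTorsionPoint t n x} ≃
      {ℓ : T.Pic (pullback c t) // Good T c ε t ℓ ∧ n • ℓ = 0} where
  toFun x := ⟨pt d h x.1, good_pt d h x.1, (isTorsionPoint_iff d h t n x.1).1 x.2⟩
  invFun ℓ := ⟨(ptEquiv d h t).symm ⟨ℓ.1, ℓ.2.1⟩, by
    rw [isTorsionPoint_iff]
    have e : pt d h ((ptEquiv d h t).symm ⟨ℓ.1, ℓ.2.1⟩) = ℓ.1 :=
      congrArg Subtype.val ((ptEquiv d h t).apply_symm_apply ⟨ℓ.1, ℓ.2.1⟩)
    rw [e]
    exact ℓ.2.2⟩
  left_inv x := Subtype.ext ((ptEquiv d h t).symm_apply_apply x.1)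
  right_inv ℓ := Subtype.ext
    (show pt d h ((ptEquiv d h t).symm ⟨ℓ.1, ℓ.2.1⟩) = ℓ.1 from
      congrArg Subtype.val ((ptEquiv d h t).apply_symm_apply ⟨ℓ.1, ℓ.2.1⟩))

theorem natCard_torsion {S : Scheme.{u}} (t : S ⟶ Spec (CommRingCat.of k)) (n : ℕ) :
    Nat.card {x : SchemeHomOver t D.toBase // (groupLaw d h).IsTorsionPoint t n x} =
      Nat.card {ℓ : T.Pic (pullback c t) // Good T c ε t ℓ ∧ n • ℓ = 0} :=
  Nat.card_congr (torsionEquiv d h t n)

end Law

/-! ## Application: counting torsion classes with row S26 -/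

section Count

/-- The statement of row S26, as a `Prop` (to be fed with `Fermat.Agent.S26.result`). -/
def S26Statement : Prop :=
  ∀ (K : Type u) [Field K] [IsAlgClosed K] {A : Scheme.{u}} (f : A ⟶ Spec (CommRingCat.of K))
    (L : RelativeGroupLaw K f) (_ : L.IsCommutative) (_ : AbelianSchemePropertyBundle K f)
    (g : ℕ) [SmoothOfRelativeDimension g f] (n : ℕ) (_ : (n : K) ≠ 0),
    Nat.card {x : SchemeHomOver (𝟙 (Spec (CommRingCat.of K))) f //
        L.IsTorsionPoint (𝟙 (Spec (CommRingCat.of K))) n x} = n ^ (2 * g)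

variable {T : S26.PicTheory.{u}} {k : Type u} [Field k] {C : Scheme.{u}}
  {c : C ⟶ Spec (CommRingCat.of k)} {ε : SchemeHomOver (𝟙 (Spec (CommRingCat.of k))) c}
  {D : RelativePic0Designation k c}

/-- A smooth, proper, geometrically connected scheme representing the degree-zero relative
Picard functor is an abelian scheme in the sense of the Prelude. -/
theorem abelianSchemePropertyBundle (d : PicDict T)
    (h : RepresentsRelSubPic c ε (algEquivZeroCut c ε) D)
    (hsm : Smooth D.toBase) (hpr : IsProper D.toBase)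
    (hgc : GeometricallyConnected D.toBase) : AbelianSchemePropertyBundle k D.toBase where
  smooth := hsm
  proper := hpr
  connectedFibres s := Scheme.Hom.isConnected_preimage_singleton D.toBase s
  hasGroupLaw := ⟨groupLaw d h⟩

/-- **S27, Jacobian side.**  If the Jacobian has relative dimension `g`, the good classes on
`C` killed by `n` are `n ^ (2 g)` in number (`n` invertible in the algebraically closed field
`k`). -/
theorem natCard_good_torsion (hS26 : S26Statement.{u}) (d : PicDict T)
    (h : RepresentsRelSubPic c ε (algEquivZeroCut c ε) D) [IsAlgClosed k]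
    (hsm : Smooth D.toBase) (hpr : IsProper D.toBase) (hgc : GeometricallyConnected D.toBase)
    (g : ℕ) [SmoothOfRelativeDimension g D.toBase] (n : ℕ) (hn : (n : k) ≠ 0) :
    Nat.card {ℓ : T.Pic (pullback c (𝟙 (Spec (CommRingCat.of k)))) //
        Good T c ε (𝟙 (Spec (CommRingCat.of k))) ℓ ∧ n • ℓ = 0} = n ^ (2 * g) := by
  rw [← natCard_torsion d h (𝟙 (Spec (CommRingCat.of k))) n]
  exact hS26 k D.toBase (groupLaw d h) (groupLaw_isCommutative d h)
    (abelianSchemePropertyBundle d h hsm hpr hgc) g n hn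

end Count

end

end Fermat.Agent.S27.H927
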