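import Fermat.Agent.S27.H927.PairAdd
import Fermat.Agent.S27.H927.JGrp
import Fermat.Agent.S27.Spec
import Fermat.Agent.S27.H325.TensorDegFam
import Fermat.Agent.S25.H505.DictGlue
import Fermat.Agent.S25.H205.ChartRing

/-!
# Row S27, block GRP (helper927): the tensor clause of `Stmt.Grp` from class addition

* `picDict : PicDict Pic.cechPic` (from helper266's dictionary `S26/H266/Dict.lean`);
* `chartPairing` : a bilinear map of the modules of a gluing datum gives a pairing of sections
  over the chart (through `Corr`);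
* `isClassOf_add_of_isTensor` : if `Corr L G`, `Corr L' G'`, `Corr L'' G''` and
  `IsTensor G G' G''` then `[L''] = [L] + [L']` in the Čech Picard group;
* `grp : Stmt.Grp k`.
-/

set_option autoImplicit false

universe u

open CategoryTheory CategoryTheory.Limits AlgebraicGeometry AlgebraicGeometry.RelPicard
  NeronModelInfra GoodReductionJacobian TopologicalSpace Opposite
open scoped TensorProduct

namespace Fermat.Agent.S27.H927

open Fermat.Agent.S25 Fermat.Agent.S26 Fermat.Agent.S26.H266 Fermat.Agent.S27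
open Fermat.Agent.S25.H626 (res resO res_res res_smul res_add resO_resO resO_mul resO_one res_id
  resO_id res_zero resO_pow res_pow_smul IsLocalGenerator HasLocalGenerators)

noncomputable section

/-! ## The dictionary for the Čech Picard group -/

/-- The dictionary between Čech classes and invertible modules (helper266). -/
def picDict : PicDict Pic.cechPic.{u} where
  Rep := fun a L => IsClassOf L a
  exists_rep := fun a => by
    obtain ⟨L, hL⟩ := exists_isClassOf a
    exact ⟨L, hL.isInvertible, hL⟩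
  exists_class := fun L hL => exists_isClassOf_of_isInvertible hL
  rep_congr := fun _ _ _ h ⟨e⟩ => h.of_iso e
  rep_iso := fun _ _ _ h h' => h.nonempty_iso h'
  rep_inj := fun _ _ _ h h' => h.unique h'
  rep_unit := fun X => isClassOf_unit_zero X
  rep_pullback := fun f _ _ h => h.pullback f

/-! ## Pairings of sections over a chart -/

section Chart

variable {k : Type u} [Field k] {C : Scheme.{u}} (c : C ⟶ Spec (CommRingCat.of k))
  (A : Type u) [CommRing A] [Algebra k A]
  {L L' L'' : (pullback c (specStr k A)).Modules}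
  {U : C.Opens} (hU : IsAffineOpen U) {B : Type u} [CommRing B] [Algebra k B]
  (i : Γ(C, U) ≃+* B) (hi : ∀ a : k, i (sectionsStr c U a) = algebraMap k B a)
  {N N' N'' : Type u} [AddCommGroup N] [Module (A ⊗[k] B) N] [AddCommGroup N']
  [Module (A ⊗[k] B) N'] [AddCommGroup N''] [Module (A ⊗[k] B) N'']

/-- `IsSectionsIso` is semilinearity with respect to `chartRingEquiv`. -/
theorem sectionsIso_smul {e : Γ(L, preimageOpen (c := c) A U) ≃+ N}
    (he : IsSectionsIso A L U i e) (z : A ⊗[k] B) (s : Γ(L, preimageOpen (c := c) A U)) :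
    e (H205.chartRingEquiv c A hU i hi z • s) = z • e s := by
  induction z using TensorProduct.induction_on generalizing s with
  | zero => simp
  | tmul a b =>
    rw [H205.chartRingEquiv_tmul, mul_smul, he.1, he.2, i.apply_symm_apply, ← mul_smul,
      Algebra.TensorProduct.tmul_mul_tmul, mul_one, one_mul]
  | add x y hx hy => rw [map_add, add_smul, map_add, hx, hy, add_smul]

theorem sectionsIso_symm_smul {e : Γ(L, preimageOpen (c := c) A U) ≃+ N}
    (he : IsSectionsIso A L U i e) (z : A ⊗[k] B) (n : N) :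
    e.symm (z • n) = H205.chartRingEquiv c A hU i hi z • e.symm n := by
  apply e.injective
  rw [sectionsIso_smul c A hU i hi he, e.apply_symm_apply, e.apply_symm_apply]

/-- The pairing of sections over a chart induced by a bilinear map of the modules of the
gluing data. -/
def chartPairing {e : Γ(L, preimageOpen (c := c) A U) ≃+ N}
    {e' : Γ(L', preimageOpen (c := c) A U) ≃+ N'}
    {e'' : Γ(L'', preimageOpen (c := c) A U) ≃+ N''}
    (he : IsSectionsIso A L U i e) (he' : IsSectionsIso A L' U i e')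
    (he'' : IsSectionsIso A L'' U i e'') (b : N →ₗ[A ⊗[k] B] N' →ₗ[A ⊗[k] B] N'') :
    SecPairing L L' L'' (preimageOpen (c := c) A U) where
  β s s' := e''.symm (b (e s) (e' s'))
  add_left s t s' := by rw [map_add, map_add, LinearMap.add_apply, map_add]
  add_right s s' t' := by rw [map_add, map_add, map_add]
  smul_left r s s' := by
    obtain ⟨z, rfl⟩ := (H205.chartRingEquiv c A hU i hi).surjective r
    rw [sectionsIso_smul c A hU i hi he, map_smul, LinearMap.smul_apply,
      sectionsIso_symm_smul c A hU i hi he'']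
  smul_right r s s' := by
    obtain ⟨z, rfl⟩ := (H205.chartRingEquiv c A hU i hi).surjective r
    rw [sectionsIso_smul c A hU i hi he', map_smul, sectionsIso_symm_smul c A hU i hi he'']

theorem chartPairing_apply {e : Γ(L, preimageOpen (c := c) A U) ≃+ N}
    {e' : Γ(L', preimageOpen (c := c) A U) ≃+ N'}
    {e'' : Γ(L'', preimageOpen (c := c) A U) ≃+ N''}
    (he : IsSectionsIso A L U i e) (he' : IsSectionsIso A L' U i e')
    (he'' : IsSectionsIso A L'' U i e'') (b : N →ₗ[A ⊗[k] B] N' →ₗ[A ⊗[k] B] N'')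
    (s : Γ(L, preimageOpen (c := c) A U)) (s' : Γ(L', preimageOpen (c := c) A U)) :
    e'' ((chartPairing c A hU i hi he he' he'' b).β s s') = b (e s) (e' s') :=
  e''.apply_symm_apply _

theorem chartPairing_gen {e : Γ(L, preimageOpen (c := c) A U) ≃+ N}
    {e' : Γ(L', preimageOpen (c := c) A U) ≃+ N'}
    {e'' : Γ(L'', preimageOpen (c := c) A U) ≃+ N''}
    (he : IsSectionsIso A L U i e) (he' : IsSectionsIso A L' U i e')
    (he'' : IsSectionsIso A L'' U i e'') (b : N →ₗ[A ⊗[k] B] N' →ₗ[A ⊗[k] B] N'')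
    (hb : Function.Surjective (TensorProduct.lift b)) :
    (chartPairing c A hU i hi he he' he'' b).Gen := by
  intro T h0 hβ hadd t
  obtain ⟨z, hz⟩ := hb (e'' t)
  have key : ∀ z : N ⊗[A ⊗[k] B] N', T (e''.symm (TensorProduct.lift b z)) := by
    intro z
    induction z using TensorProduct.induction_on with
    | zero => rw [map_zero, map_zero]; exact h0
    | tmul n n' =>
      have := hβ (e.symm n) (e'.symm n')
      change T (e''.symm (b (e (e.symm n)) (e' (e'.symm n')))) at this
      rw [e.apply_symm_apply, e'.apply_symm_apply] at this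
      rw [TensorProduct.lift.tmul]
      exact this
    | add x y hx hy =>
      rw [map_add, map_add]
      exact hadd _ _ hx hy
  have := key z
  rwa [hz, e''.symm_apply_apply] at this

end Chart

/-! ## The bridge: tensor products of gluing data add classes -/

section Bridge

variable {k : Type u} [Field k] {C : Scheme.{u}} {c : C ⟶ Spec (CommRingCat.of k)}
  {ε : SchemeHomOver (𝟙 (Spec (CommRingCat.of k))) c} (Ch : ChartOf c ε)
  (A : Type u) [CommRing A] [Algebra k A]

/-- **The bridge.**  If `G`, `G'`, `G''` are the gluing data of sections of the invertible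
modules `L`, `L'`, `L''` on `C_A` and `G''` is a tensor product of `G` and `G'`, then the class
of `L''` in the Čech Picard group is the sum of the classes of `L` and `L'`. -/
theorem isClassOf_add_of_isTensor {L L' L'' : (pullback c (specStr k A)).Modules}
    (hL : Scheme.Modules.IsInvertible L) (hL' : Scheme.Modules.IsInvertible L')
    (hL'' : Scheme.Modules.IsInvertible L'')
    {G G' G'' : CurveGD k Ch.B₀ Ch.B₁ Ch.B₀₁ A}
    (hG : Corr Ch A L G) (hG' : Corr Ch A L' G') (hG'' : Corr Ch A L'' G'')
    (hT : IsTensor G G' G'')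
    {a a' : Pic.cechPic.Pic (pullback c (specStr k A))}
    (ha : IsClassOf L a) (ha' : IsClassOf L' a') : IsClassOf L'' (a + a') := by
  obtain ⟨e₀, e₁, e₀₁, h₀, h₁, h₀₁, hr₀, hr₁⟩ := hG
  obtain ⟨e₀', e₁', e₀₁', h₀', h₁', h₀₁', hr₀', hr₁'⟩ := hG'
  obtain ⟨e₀'', e₁'', e₀₁'', h₀'', h₁'', h₀₁'', hr₀'', hr₁''⟩ := hG''
  obtain ⟨T⟩ := hT
  have a₀ := H205.isAffineOpen_preimageOpen c A Ch.isAffine₀
  have a₁ := H205.isAffineOpen_preimageOpen c A Ch.isAffine₁
  have a₀₁ := H205.isAffineOpen_preimageOpen c A (H566.chart_isAffine₀₁ Ch)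
  have l₀ : preimageOpen (c := c) A (Ch.U₀ ⊓ Ch.U₁) ≤ preimageOpen (c := c) A Ch.U₀ :=
    Scheme.Hom.preimage_mono _ inf_le_left
  have l₁ : preimageOpen (c := c) A (Ch.U₀ ⊓ Ch.U₁) ≤ preimageOpen (c := c) A Ch.U₁ :=
    Scheme.Hom.preimage_mono _ inf_le_right
  have hinf : preimageOpen (c := c) A Ch.U₀ ⊓ preimageOpen (c := c) A Ch.U₁ ≤
      preimageOpen (c := c) A (Ch.U₀ ⊓ Ch.U₁) := fun x hx => hx
  have hcov : ∀ x : ↥(pullback c (specStr k A)),
      x ∈ preimageOpen (c := c) A Ch.U₀ ∨ x ∈ preimageOpen (c := c) A Ch.U₁ := by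
    intro x
    have hx : (pullback.fst c (specStr k A)) x ∈ Ch.U₀ ⊔ Ch.U₁ := by
      rw [Ch.cover]; trivial
    exact hx
  refine isClassOf_add_of_two_charts (H626.hasLocalGenerators_of_isInvertible hL)
    (H626.hasLocalGenerators_of_isInvertible hL') (H626.hasLocalGenerators_of_isInvertible hL'')
    a₀ a₁ a₀₁ hcov l₀ l₁ hinf
    (chartPairing c A Ch.isAffine₀ Ch.i₀ Ch.i₀_str h₀ h₀' h₀'' T.β₀)
    (chartPairing c A Ch.isAffine₁ Ch.i₁ Ch.i₁_str h₁ h₁' h₁'' T.β₁)
    (chartPairing c A (H566.chart_isAffine₀₁ Ch) Ch.i₀₁ (H566.chart_i₀₁_str Ch) h₀₁ h₀₁' h₀₁''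
      T.β₀₁)
    (chartPairing_gen c A _ _ _ h₀ h₀' h₀'' T.β₀ T.bijective₀.2)
    (chartPairing_gen c A _ _ _ h₁ h₁' h₁'' T.β₁ T.bijective₁.2)
    (fun s s' => ?_) (fun s s' => ?_) ha ha'
  · apply e₀₁''.injective
    rw [chartPairing_apply]
    refine (hr₀'' _).trans ?_
    rw [chartPairing_apply, ← T.comm₀]
    congr 1
    · exact congrArg _ (hr₀ s).symm
    · exact (hr₀' s').symm
  · apply e₀₁''.injective
    rw [chartPairing_apply]
    refine (hr₁'' _).trans ?_
    rw [chartPairing_apply, ← T.comm₁]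
    congr 1
    · exact congrArg _ (hr₁ s).symm
    · exact (hr₁' s').symm

end Bridge

/-! ## `Corr` and isomorphisms -/

section CorrIso

variable {k : Type u} [Field k] {C : Scheme.{u}} {c : C ⟶ Spec (CommRingCat.of k)}
  {ε : SchemeHomOver (𝟙 (Spec (CommRingCat.of k))) c} (Ch : ChartOf c ε)
  {A : Type u} [CommRing A] [Algebra k A]

/-- The additive equivalence on sections induced by an isomorphism of modules. -/
def secAddEquiv {X : Scheme.{u}} {L L' : X.Modules} (φ : L ≅ L') (V : X.Opens) :
    Γ(L, V) ≃+ Γ(L', V) where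
  toFun s := φ.hom.app V s
  invFun s := φ.inv.app V s
  left_inv s := by
    change φ.inv.app V (φ.hom.app V s) = s
    rw [← ConcreteCategory.comp_apply, ← Scheme.Modules.Hom.comp_app, Iso.hom_inv_id]
    rfl
  right_inv s := by
    change φ.hom.app V (φ.inv.app V s) = s
    rw [← ConcreteCategory.comp_apply, ← Scheme.Modules.Hom.comp_app, Iso.inv_hom_id]
    rfl
  map_add' s t := map_add _ s t

theorem secAddEquiv_apply {X : Scheme.{u}} {L L' : X.Modules} (φ : L ≅ L') (V : X.Opens)
    (s : Γ(L, V)) : secAddEquiv φ V s = φ.hom.app V s := rfl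

theorem isSectionsIso_trans_iso {L L' : (pullback c (specStr k A)).Modules} (φ : L' ≅ L)
    (U : C.Opens) {B : Type u} [CommRing B] [Algebra k B] (i : Γ(C, U) ≃+* B)
    {N : Type u} [AddCommGroup N] [Module (A ⊗[k] B) N]
    (e : Γ(L, preimageOpen (c := c) A U) ≃+ N) (he : IsSectionsIso A L U i e) :
    IsSectionsIso A L' U i ((secAddEquiv φ (preimageOpen (c := c) A U)).trans e) := by
  refine ⟨fun a s => ?_, fun f s => ?_⟩
  · rw [AddEquiv.trans_apply, AddEquiv.trans_apply, secAddEquiv_apply,
      secAddEquiv_apply, Scheme.Modules.Hom.app_smul, he.1]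
  · rw [AddEquiv.trans_apply, AddEquiv.trans_apply, secAddEquiv_apply,
      secAddEquiv_apply, Scheme.Modules.Hom.app_smul, he.2]

/-- **`Corr` is invariant under isomorphisms of the module.** -/
theorem corr_of_modIso {L L' : (pullback c (specStr k A)).Modules}
    (G : CurveGD k Ch.B₀ Ch.B₁ Ch.B₀₁ A) (hG : Corr Ch A L G) (φ : L' ≅ L) :
    Corr Ch A L' G := by
  obtain ⟨e₀, e₁, e₀₁, h₀, h₁, h₀₁, hr₀, hr₁⟩ := hG
  refine ⟨(secAddEquiv φ _).trans e₀, (secAddEquiv φ _).trans e₁,
    (secAddEquiv φ _).trans e₀₁, isSectionsIso_trans_iso φ _ _ _ h₀,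
    isSectionsIso_trans_iso φ _ _ _ h₁, isSectionsIso_trans_iso φ _ _ _ h₀₁,
    fun s => ?_, fun s => ?_⟩
  · rw [AddEquiv.trans_apply, AddEquiv.trans_apply, secAddEquiv_apply, secAddEquiv_apply]
    refine Eq.trans ?_ (hr₀ _)
    exact congrArg e₀₁ (H626.app_res φ.hom _ s)
  · rw [AddEquiv.trans_apply, AddEquiv.trans_apply, secAddEquiv_apply, secAddEquiv_apply]
    refine Eq.trans ?_ (hr₁ _)
    exact congrArg e₀₁ (H626.app_res φ.hom _ s)

end CorrIso

/-! ## `Stmt.Grp` -/

section Grp

variable (k : Type u) [Field k]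

/-- **GRP.**  The Jacobian of a curve carries a commutative group law which on affine test
schemes is the tensor product of gluing data. -/
theorem grp : Stmt.Grp k := by
  intro _ C c _ _ _ ε Ch D hrep
  refine ⟨groupLaw picDict hrep, groupLaw_isCommutative picDict hrep, ?_⟩
  intro A _ _ g g' G G' G'' hG hG' hT
  have r : G.Rigidifiable Ch.e :=
    H505.rigidifiable_of_corr Ch A (hrep.poincare.pullbackAlong g) G hG
  have r' : G'.Rigidifiable Ch.e :=
    H505.rigidifiable_of_corr Ch A (hrep.poincare.pullbackAlong g') G' hG'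
  have r'' : G''.Rigidifiable Ch.e := H325.rigidifiable_of_isTensor Ch.e hT r r'
  obtain ⟨M, hM⟩ := H505.dictGlue Ch A G'' r''
  have h1 : IsClassOf (hrep.poincare.pullbackAlong g).L (pt picDict hrep g) :=
    picDict.rep_cls _ _
  have h2 : IsClassOf (hrep.poincare.pullbackAlong g').L (pt picDict hrep g') :=
    picDict.rep_cls _ _
  have h3 : IsClassOf M.L (pt picDict hrep g + pt picDict hrep g') :=
    isClassOf_add_of_isTensor Ch A (hrep.poincare.pullbackAlong g).isInvertible
      (hrep.poincare.pullbackAlong g').isInvertible M.isInvertible hG hG' hM hT h1 h2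
  have h4 : IsClassOf (hrep.poincare.pullbackAlong
      ((groupLaw picDict hrep).mul (specStr k A) g g')).L
      (pt picDict hrep ((groupLaw picDict hrep).mul (specStr k A) g g')) :=
    picDict.rep_cls _ _
  rw [pt_mul] at h4
  obtain ⟨φ⟩ := h4.nonempty_iso h3
  exact corr_of_modIso Ch G'' hM φ

end Grp

end

end Fermat.Agent.S27.H927
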