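import Fermat.Agent.S26.H266.Dict
import Fermat.Agent.S25.H626.SecLoc

/-!
# Row S27, block GRP (helper927): pairings of invertible modules add Čech classes

Mathlib has no tensor product of sheaves of modules.  We replace it by *pairings of sections
over affine charts*: a `SecPairing L L' L'' P` is a `Γ(X, P)`-bilinear map
`Γ(L, P) × Γ(L', P) → Γ(L'', P)`.  If `X` is covered by affine opens `P i` carrying generating
pairings, compatible with pairings on affine opens `Q i j` between `P i ⊓ P j` and `P i`, `P j`,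
then the class of `L''` in the Čech Picard group is the sum of the classes of `L` and `L'`
(`isClassOf_add_of_pairings`).
-/

set_option autoImplicit false

universe u

open CategoryTheory AlgebraicGeometry TopologicalSpace Opposite

namespace Fermat.Agent.S27.H927

open Fermat.Agent.S25 Fermat.Agent.S26 Fermat.Agent.S26.H266
open Fermat.Agent.S25.H626 (res resO res_res res_smul res_add resO_resO resO_mul resO_one res_id
  resO_id res_zero resO_pow res_pow_smul IsLocalGenerator HasLocalGenerators)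

noncomputable section

variable {X : Scheme.{u}}

/-! ## Pairings of sections -/

/-- A `Γ(X, P)`-bilinear pairing `Γ(L, P) × Γ(L', P) → Γ(L'', P)`. -/
structure SecPairing (L L' L'' : X.Modules) (P : X.Opens) where
  /-- the pairing -/
  β : Γ(L, P) → Γ(L', P) → Γ(L'', P)
  add_left : ∀ s t s', β (s + t) s' = β s s' + β t s'
  add_right : ∀ s s' t', β s (s' + t') = β s s' + β s t'
  smul_left : ∀ (r : Γ(X, P)) s s', β (r • s) s' = r • β s s'
  smul_right : ∀ (r : Γ(X, P)) s s', β s (r • s') = r • β s s'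

namespace SecPairing

variable {L L' L'' : X.Modules} {P Q : X.Opens}

/-- The values of the pairing generate `Γ(L'', P)` as a group (induction principle). -/
def Gen (β : SecPairing L L' L'' P) : Prop :=
  ∀ (T : Γ(L'', P) → Prop), T 0 → (∀ s s', T (β.β s s')) →
    (∀ t t', T t → T t' → T (t + t')) → ∀ t, T t

/-- Compatibility of two pairings with restriction. -/
def Compat (β : SecPairing L L' L'' P) (γ : SecPairing L L' L'' Q) (h : Q ≤ P) : Prop :=
  ∀ s s', res L'' h (β.β s s') = γ.β (res L h s) (res L' h s')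

theorem compat_refl (β : SecPairing L L' L'' P) : β.Compat β le_rfl := fun s s' => by
  rw [res_id, res_id, res_id]

theorem sub_left (β : SecPairing L L' L'' P) (s t : Γ(L, P)) (s' : Γ(L', P)) :
    β.β (s - t) s' = β.β s s' - β.β t s' := by
  have := β.add_left (s - t) t s'
  rw [sub_add_cancel] at this
  rw [this, add_sub_cancel_right]

theorem sub_right (β : SecPairing L L' L'' P) (s : Γ(L, P)) (s' t' : Γ(L', P)) :
    β.β s (s' - t') = β.β s s' - β.β s t' := by
  have := β.add_right s (s' - t') t'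
  rw [sub_add_cancel] at this
  rw [this, add_sub_cancel_right]

theorem eq_of_sub_eq_zero_left (β : SecPairing L L' L'' P) {s t : Γ(L, P)} (h : s = t)
    (s' : Γ(L', P)) : β.β s s' = β.β t s' := by rw [h]

end SecPairing

/-! ## Elementary facts on local generators -/

section Gen

variable {M : X.Modules}

/-- A unit multiple of a local generator is a local generator. -/
theorem isLocalGenerator_smul_of_isUnit {U : X.Opens} {s : Γ(M, U)}
    (hs : IsLocalGenerator M U s) {a : Γ(X, U)} (ha : IsUnit a) :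
    IsLocalGenerator M U (a • s) := by
  intro W hW
  have h1 : (fun r : Γ(X, W) => r • res M hW (a • s)) =
      (fun r : Γ(X, W) => r • res M hW s) ∘ (fun r : Γ(X, W) => r * resO hW a) := by
    funext r
    simp only [Function.comp_apply]
    rw [res_smul, mul_smul]
  rw [h1]
  refine (hs W hW).comp ?_
  have hu : IsUnit (resO hW a) := H326.isUnit_resO hW ha
  exact hu.unit.mulRight_bijective

/-- On a basic open the function is invertible. -/
theorem isUnit_resO_basicOpen {P W : X.Opens} (f : Γ(X, P)) (hW : W ≤ P)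
    (hWf : W ≤ X.basicOpen f) : IsUnit (resO hW f) := by
  have h1 : IsUnit (resO (X.basicOpen_le f) f) := X.toRingedSpace.isUnit_res_basicOpen f
  have h2 := H326.isUnit_resO hWf h1
  rwa [resO_resO] at h2

end Gen

/-! ## Localised bilinearity -/

section Core

variable {L L' L'' : X.Modules} {P : X.Opens}

/-- **Localised bilinearity.**  On a basic open `W = D(f)` of the affine open `P`, the pairing
is bilinear over `Γ(X, W)`: if `m = a n` and `m' = a' n'` on `W` then
`β(m, m') = a a' β(n, n')` on `W`. -/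
theorem SecPairing.res_eq_smul (β : SecPairing L L' L'' P) (hP : IsAffineOpen P)
    (hL : HasLocalGenerators L) (hL' : HasLocalGenerators L')
    (f : Γ(X, P)) {W : X.Opens} (hW : W ≤ P) (hWf : W = X.basicOpen f)
    {m n : Γ(L, P)} {m' n' : Γ(L', P)} {a a' : Γ(X, W)}
    (h : res L hW m = a • res L hW n) (h' : res L' hW m' = a' • res L' hW n') :
    res L'' hW (β.β m m') = (a * a') • res L'' hW (β.β n n') := by
  obtain ⟨k, b, hb⟩ := H626.exists_eq_pow_mul_O hP f hW hWf a
  obtain ⟨k', b', hb'⟩ := H626.exists_eq_pow_mul_O hP f hW hWf a'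
  have h0 : res L hW (f ^ k • m - b • n) = 0 := by
    rw [H626.res_sub, res_pow_smul, res_smul, h, hb, mul_smul, sub_self]
  have h0' : res L' hW (f ^ k' • m' - b' • n') = 0 := by
    rw [H626.res_sub, res_pow_smul, res_smul, h', hb', mul_smul, sub_self]
  obtain ⟨j, hj⟩ := H626.exists_pow_smul_eq_zero hL hP f _ hW hWf.ge h0
  obtain ⟨j', hj'⟩ := H626.exists_pow_smul_eq_zero hL' hP f _ hW hWf.ge h0'
  have e : (f ^ j * f ^ k) • m = (f ^ j * b) • n := by
    rw [smul_sub] at hj
    rw [mul_smul, mul_smul]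
    exact sub_eq_zero.mp hj
  have e' : (f ^ j' * f ^ k') • m' = (f ^ j' * b') • n' := by
    rw [smul_sub] at hj'
    rw [mul_smul, mul_smul]
    exact sub_eq_zero.mp hj'
  have key : ((f ^ j * f ^ k) * (f ^ j' * f ^ k')) • β.β m m' =
      ((f ^ j * b) * (f ^ j' * b')) • β.β n n' := by
    have h1 : β.β ((f ^ j * f ^ k) • m) ((f ^ j' * f ^ k') • m') =
        β.β ((f ^ j * b) • n) ((f ^ j' * b') • n') := by rw [e, e']
    rw [β.smul_left, β.smul_right, β.smul_left, β.smul_right, smul_smul, smul_smul] at h1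
    exact h1
  have hu : IsUnit (resO hW f) := isUnit_resO_basicOpen f hW hWf.le
  have hu' : IsUnit ((resO hW f ^ j * resO hW f ^ k) * (resO hW f ^ j' * resO hW f ^ k')) :=
    ((hu.pow j).mul (hu.pow k)).mul ((hu.pow j').mul (hu.pow k'))
  have h2 := congrArg (res L'' hW) key
  rw [res_smul, res_smul] at h2
  simp only [resO_mul, resO_pow, hb, hb'] at h2
  apply hu'.smul_left_cancel.mp
  rw [h2, smul_smul]
  congr 1
  ring

/-- **Generators pair to generators.**  On a basic open `V = D(f)` of the affine open `P` on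
which `L''` is trivial, the pairing of two sections which generate `L`, `L'` on `V`
generates `L''` on `V`. -/
theorem SecPairing.isLocalGenerator (β : SecPairing L L' L'' P) (hβ : β.Gen)
    (hP : IsAffineOpen P) (hL : HasLocalGenerators L) (hL' : HasLocalGenerators L')
    (hL'' : HasLocalGenerators L'') (f : Γ(X, P)) {V : X.Opens} (hV : V ≤ P)
    (hVf : V = X.basicOpen f) {n : Γ(L, P)} {n' : Γ(L', P)}
    (hn : IsLocalGenerator L V (res L hV n)) (hn' : IsLocalGenerator L' V (res L' hV n'))
    {t : Γ(L'', V)} (ht : IsLocalGenerator L'' V t) :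
    IsLocalGenerator L'' V (res L'' hV (β.β n n')) := by
  obtain ⟨a, ha⟩ := ht.exists_smul_eq_self (res L'' hV (β.β n n'))
  obtain ⟨N, s'', hs''⟩ := H626.exists_res_eq_pow_smul hL'' hP f hV hVf t
  have hmul : ∀ u : Γ(L'', P), ∃ c : Γ(X, V), res L'' hV u = c • res L'' hV (β.β n n') := by
    refine hβ _ ⟨0, by rw [res_zero, zero_smul]⟩ (fun s s' => ?_) ?_
    · obtain ⟨a₁, h₁⟩ := hn.exists_smul_eq_self (res L hV s)
      obtain ⟨a₂, h₂⟩ := hn'.exists_smul_eq_self (res L' hV s')
      exact ⟨a₁ * a₂, β.res_eq_smul hP hL hL' f hV hVf h₁.symm h₂.symm⟩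
    · rintro t₁ t₂ ⟨c₁, hc₁⟩ ⟨c₂, hc₂⟩
      exact ⟨c₁ + c₂, by rw [res_add, hc₁, hc₂, add_smul]⟩
  obtain ⟨c, hc⟩ := hmul s''
  have h1 : (c * a) • t = (resO hV f ^ N) • t := by
    rw [mul_smul, ha, ← hc, hs'']
  have h2 : c * a = resO hV f ^ N := (H146.bijective_smul_of_isLocalGenerator ht).1 h1
  have hu : IsUnit (resO hV f ^ N) := (isUnit_resO_basicOpen f hV hVf.le).pow N
  have ha_unit : IsUnit a := by
    rw [← h2] at hu
    exact isUnit_of_mul_isUnit_right hu
  rw [← ha]
  exact isLocalGenerator_smul_of_isUnit ht ha_unit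

end Core

/-! ## Frames adapted to an affine cover -/

section Local

variable {L L' L'' : X.Modules}

/-- A section over an affine open whose restriction to a basic open generates: obtained from
any generator on the basic open. -/
theorem exists_res_isLocalGenerator (hL : HasLocalGenerators L) {P : X.Opens}
    (hP : IsAffineOpen P) (f : Γ(X, P)) {t : Γ(L, X.basicOpen f)}
    (ht : IsLocalGenerator L (X.basicOpen f) t) :
    ∃ n : Γ(L, P), IsLocalGenerator L (X.basicOpen f) (res L (X.basicOpen_le f) n) := by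
  obtain ⟨N, n, hn⟩ := H626.exists_res_eq_pow_smul hL hP f (X.basicOpen_le f) rfl t
  refine ⟨n, ?_⟩
  rw [hn]
  exact isLocalGenerator_smul_of_isUnit ht
    ((isUnit_resO_basicOpen f (X.basicOpen_le f) le_rfl).pow N)

/-- Local data at a point: a basic open of a chart on which the three modules are trivial,
with generators of `L` and `L'` coming from the chart. -/
theorem exists_local_data (hL : HasLocalGenerators L) (hL' : HasLocalGenerators L')
    (hL'' : HasLocalGenerators L'') {P : X.Opens} (hP : IsAffineOpen P) (x : X) (hx : x ∈ P) :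
    ∃ (f : Γ(X, P)) (n : Γ(L, P)) (n' : Γ(L', P)) (t : Γ(L'', X.basicOpen f)),
      x ∈ X.basicOpen f ∧
      IsLocalGenerator L (X.basicOpen f) (res L (X.basicOpen_le f) n) ∧
      IsLocalGenerator L' (X.basicOpen f) (res L' (X.basicOpen_le f) n') ∧
      IsLocalGenerator L'' (X.basicOpen f) t := by
  obtain ⟨U, hxU, g, hg⟩ := hL x
  obtain ⟨U', hxU', g', hg'⟩ := hL' x
  obtain ⟨U'', hxU'', g'', hg''⟩ := hL'' x
  obtain ⟨f, hf, hxf⟩ := hP.exists_basicOpen_le (V := U ⊓ U' ⊓ U'')
    ⟨x, ⟨⟨hxU, hxU'⟩, hxU''⟩⟩ hx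
  have h1 : X.basicOpen f ≤ U := hf.trans (inf_le_left.trans inf_le_left)
  have h2 : X.basicOpen f ≤ U' := hf.trans (inf_le_left.trans inf_le_right)
  have h3 : X.basicOpen f ≤ U'' := hf.trans inf_le_right
  obtain ⟨n, hn⟩ := exists_res_isLocalGenerator hL hP f (hg.restrict h1)
  obtain ⟨n', hn'⟩ := exists_res_isLocalGenerator hL' hP f (hg'.restrict h2)
  exact ⟨f, n, n', res L'' h3 g'', hxf, hn, hn', hg''.restrict h3⟩

end Local

/-! ## The cocycle of a frame indexed by the points -/

section Cocycle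

variable {M : X.Modules}

/-- The cocycle of a frame indexed by the points of `X`. -/
def cocycleOfFrame {U : X → X.Opens} (hU : ∀ x, x ∈ U x) {g : ∀ x y, Γ(X, U x ⊓ U y)}
    {s : ∀ x, Γ(M, U x)} (hs : IsFrame M U g s) : Pic.Cocycle X where
  U := U
  mem := hU
  g := fun x y => (hs.isUnit_g x y).unit
  cocycle := fun x y z => by
    apply Units.ext
    exact hs.cocycle_on x y z (inf_le_left.trans inf_le_left)
      (inf_le_left.trans inf_le_right) inf_le_right

theorem realizes_cocycleOfFrame {U : X → X.Opens} (hU : ∀ x, x ∈ U x)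
    {g : ∀ x y, Γ(X, U x ⊓ U y)} {s : ∀ x, Γ(M, U x)} (hs : IsFrame M U g s) :
    Realizes M (cocycleOfFrame hU hs) :=
  ⟨s, ⟨hs.gen, fun x y => hs.trans x y⟩⟩

theorem isClassOf_cocycleOfFrame {U : X → X.Opens} (hU : ∀ x, x ∈ U x)
    {g : ∀ x y, Γ(X, U x ⊓ U y)} {s : ∀ x, Γ(M, U x)} (hs : IsFrame M U g s) :
    IsClassOf M (Pic.cl (cocycleOfFrame hU hs)) :=
  (realizes_cocycleOfFrame hU hs).isClassOf

/-- Frames on the same opens whose transition functions multiply have classes which add. -/
theorem cl_cocycleOfFrame_mul {M' M'' : X.Modules} {U : X → X.Opens} (hU : ∀ x, x ∈ U x)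
    {g g' : ∀ x y, Γ(X, U x ⊓ U y)} {s : ∀ x, Γ(M, U x)} {s' : ∀ x, Γ(M', U x)}
    {s'' : ∀ x, Γ(M'', U x)} (hs : IsFrame M U g s) (hs' : IsFrame M' U g' s')
    (hs'' : IsFrame M'' U (fun x y => g x y * g' x y) s'') :
    Pic.cl (cocycleOfFrame hU hs'') =
      Pic.cl (cocycleOfFrame hU hs) + Pic.cl (cocycleOfFrame hU hs') := by
  rw [← Pic.cl_mul, Pic.cl_eq_cl]
  refine Pic.Cocycle.rel_of_eq_on _ _ U hU (fun _ => le_rfl) (fun _ => le_inf le_rfl le_rfl)
    (fun x y => ?_)
  apply Units.ext
  change resO (U := U x ⊓ U y) (V := U x ⊓ U y) le_rfl (g x y * g' x y) =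
    resO (U := (U x ⊓ U x) ⊓ (U y ⊓ U y)) (V := U x ⊓ U y)
      (inf_le_inf (le_inf le_rfl le_rfl) (le_inf le_rfl le_rfl))
      (resO (U := U x ⊓ U y) (V := (U x ⊓ U x) ⊓ (U y ⊓ U y))
          (inf_le_inf inf_le_left inf_le_left) (g x y) *
        resO (U := U x ⊓ U y) (V := (U x ⊓ U x) ⊓ (U y ⊓ U y))
          (inf_le_inf inf_le_right inf_le_right) (g' x y))
  rw [resO_id, resO_mul, resO_resO, resO_resO, resO_id, resO_id]

end Cocycle

/-! ## The main theorem -/

section Main

variable {L L' L'' : X.Modules}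

/-- **Pairings add classes.**  Let `X` be covered by affine opens `P i` carrying generating
bilinear pairings `Γ(L, P i) × Γ(L', P i) → Γ(L'', P i)`, and let `Q i j` be affine opens with
`P i ⊓ P j ≤ Q i j ≤ P i, P j` carrying pairings compatible with those of `P i` and `P j`.
Then the class of `L''` is the sum of the classes of `L` and `L'`. -/
theorem isClassOf_add_of_pairings {ι : Type*} (hL : HasLocalGenerators L)
    (hL' : HasLocalGenerators L') (hL'' : HasLocalGenerators L'')
    (P : ι → X.Opens) (hP : ∀ i, IsAffineOpen (P i)) (hcov : ∀ x : X, ∃ i, x ∈ P i)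
    (β : ∀ i, SecPairing L L' L'' (P i)) (hβ : ∀ i, (β i).Gen)
    (Q : ι → ι → X.Opens) (hQ : ∀ i j, IsAffineOpen (Q i j))
    (hQl : ∀ i j, Q i j ≤ P i) (hQr : ∀ i j, Q i j ≤ P j) (hQi : ∀ i j, P i ⊓ P j ≤ Q i j)
    (γ : ∀ i j, SecPairing L L' L'' (Q i j))
    (cl : ∀ i j, (β i).Compat (γ i j) (hQl i j)) (cr : ∀ i j, (β j).Compat (γ i j) (hQr i j))
    {a a' : Pic.cechPic.Pic X} (ha : IsClassOf L a) (ha' : IsClassOf L' a') :
    IsClassOf L'' (a + a') := by
  choose i hi using hcov
  have hdata := fun x => exists_local_data hL hL' hL'' (hP (i x)) x (hi x)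
  choose f n n' t hxf hn hn' ht using hdata
  have hVP : ∀ x, X.basicOpen (f x) ≤ P (i x) := fun x => X.basicOpen_le (f x)
  have hgex := fun x y => (hn y).exists_smul_eq
    (inf_le_right : X.basicOpen (f x) ⊓ X.basicOpen (f y) ≤ X.basicOpen (f y))
    (res L (inf_le_left : X.basicOpen (f x) ⊓ X.basicOpen (f y) ≤ X.basicOpen (f x))
      (res L (hVP x) (n x)))
  choose g hg using hgex
  have hgex' := fun x y => (hn' y).exists_smul_eq
    (inf_le_right : X.basicOpen (f x) ⊓ X.basicOpen (f y) ≤ X.basicOpen (f y))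
    (res L' (inf_le_left : X.basicOpen (f x) ⊓ X.basicOpen (f y) ≤ X.basicOpen (f x))
      (res L' (hVP x) (n' x)))
  choose g' hg' using hgex'
  have F : IsFrame L (fun x => X.basicOpen (f x)) g (fun x => res L (hVP x) (n x)) :=
    ⟨hn, fun x y => (hg x y).symm⟩
  have F' : IsFrame L' (fun x => X.basicOpen (f x)) g' (fun x => res L' (hVP x) (n' x)) :=
    ⟨hn', fun x y => (hg' x y).symm⟩
  have F'' : IsFrame L'' (fun x => X.basicOpen (f x)) (fun x y => g x y * g' x y)
      (fun x => res L'' (hVP x) ((β (i x)).β (n x) (n' x))) := by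
    refine ⟨fun x => (β (i x)).isLocalGenerator (hβ (i x)) (hP (i x)) hL hL' hL'' (f x) (hVP x)
      rfl (hn x) (hn' x) (ht x), fun x y => ?_⟩
    have hWQ : X.basicOpen (f x) ⊓ X.basicOpen (f y) ≤ Q (i x) (i y) :=
      (inf_le_inf (hVP x) (hVP y)).trans (hQi _ _)
    have hWf : X.basicOpen (f x) ⊓ X.basicOpen (f y) =
        X.basicOpen (resO (hQl (i x) (i y)) (f x) * resO (hQr (i x) (i y)) (f y)) := by
      rw [Scheme.basicOpen_mul,
        show X.basicOpen (resO (hQl (i x) (i y)) (f x)) = Q (i x) (i y) ⊓ X.basicOpen (f x) from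
          Scheme.basicOpen_res _ _ _,
        show X.basicOpen (resO (hQr (i x) (i y)) (f y)) = Q (i x) (i y) ⊓ X.basicOpen (f y) from
          Scheme.basicOpen_res _ _ _]
      exact le_antisymm (le_inf (le_inf hWQ inf_le_left) (le_inf hWQ inf_le_right))
        (inf_le_inf inf_le_right inf_le_right)
    have h1 : res L hWQ (res L (hQl (i x) (i y)) (n x)) =
        g x y • res L hWQ (res L (hQr (i x) (i y)) (n y)) := by
      have := hg x y
      rw [res_res, res_res] at this
      rw [res_res, res_res]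
      exact this.symm
    have h2 : res L' hWQ (res L' (hQl (i x) (i y)) (n' x)) =
        g' x y • res L' hWQ (res L' (hQr (i x) (i y)) (n' y)) := by
      have := hg' x y
      rw [res_res, res_res] at this
      rw [res_res, res_res]
      exact this.symm
    have h3 := (γ (i x) (i y)).res_eq_smul (hQ _ _) hL hL' _ hWQ hWf h1 h2
    rw [← cl, ← cr, res_res, res_res] at h3
    rw [res_res, res_res]
    exact h3
  have e := cl_cocycleOfFrame_mul hxf F F' F''
  have h1 := isClassOf_cocycleOfFrame hxf F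
  have h2 := isClassOf_cocycleOfFrame hxf F'
  have h3 := isClassOf_cocycleOfFrame hxf F''
  rw [ha.unique h1, ha'.unique h2, ← e]
  exact h3

/-- **Pairings add classes**, for a cover by two affine opens. -/
theorem isClassOf_add_of_two_charts (hL : HasLocalGenerators L)
    (hL' : HasLocalGenerators L') (hL'' : HasLocalGenerators L'')
    {P₀ P₁ P₀₁ : X.Opens} (h₀ : IsAffineOpen P₀) (h₁ : IsAffineOpen P₁)
    (h₀₁ : IsAffineOpen P₀₁) (hcov : ∀ x : X, x ∈ P₀ ∨ x ∈ P₁)
    (l₀ : P₀₁ ≤ P₀) (l₁ : P₀₁ ≤ P₁) (hinf : P₀ ⊓ P₁ ≤ P₀₁)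
    (β₀ : SecPairing L L' L'' P₀) (β₁ : SecPairing L L' L'' P₁)
    (β₀₁ : SecPairing L L' L'' P₀₁) (hβ₀ : β₀.Gen) (hβ₁ : β₁.Gen)
    (c₀ : β₀.Compat β₀₁ l₀) (c₁ : β₁.Compat β₀₁ l₁)
    {a a' : Pic.cechPic.Pic X} (ha : IsClassOf L a) (ha' : IsClassOf L' a') :
    IsClassOf L'' (a + a') := by
  refine isClassOf_add_of_pairings (ι := Bool) hL hL' hL''
    (fun b => Bool.rec P₀ P₁ b) (fun b => ?_) (fun x => ?_)
    (fun b => Bool.rec (motive := fun b => SecPairing L L' L'' (Bool.rec P₀ P₁ b)) β₀ β₁ b)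
    (fun b => ?_)
    (fun b b' => Bool.rec (Bool.rec P₀ P₀₁ b') (Bool.rec P₀₁ P₁ b') b) (fun b b' => ?_)
    (fun b b' => ?_) (fun b b' => ?_) (fun b b' => ?_)
    (fun b b' => Bool.rec
      (motive := fun b => SecPairing L L' L'' (Bool.rec (Bool.rec P₀ P₀₁ b') (Bool.rec P₀₁ P₁ b') b))
      (Bool.rec (motive := fun b' => SecPairing L L' L'' (Bool.rec P₀ P₀₁ b')) β₀ β₀₁ b')
      (Bool.rec (motive := fun b' => SecPairing L L' L'' (Bool.rec P₀₁ P₁ b')) β₀₁ β₁ b') b)
    (fun b b' => ?_) (fun b b' => ?_) ha ha'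
  · cases b
    · exact h₀
    · exact h₁
  · rcases hcov x with h | h
    · exact ⟨false, h⟩
    · exact ⟨true, h⟩
  · cases b
    · exact hβ₀
    · exact hβ₁
  · cases b <;> cases b'
    · exact h₀
    · exact h₀₁
    · exact h₀₁
    · exact h₁
  · cases b <;> cases b'
    · exact le_rfl
    · exact l₀
    · exact l₁
    · exact le_rfl
  · cases b <;> cases b'
    · exact le_rfl
    · exact l₁
    · exact l₀
    · exact le_rfl
  · cases b <;> cases b'
    · exact inf_le_left
    · exact hinf
    · exact inf_comm P₁ P₀ ▸ hinf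
    · exact inf_le_left
  · cases b <;> cases b'
    · exact β₀.compat_refl
    · exact c₀
    · exact c₁
    · exact β₁.compat_refl
  · cases b <;> cases b'
    · exact β₀.compat_refl
    · exact c₁
    · exact c₀
    · exact β₁.compat_refl

end Main

end

end Fermat.Agent.S27.H927
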